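import Fermat.Agent.F4.CfCore.H1VanishBC

/-!
# F4 / CfCore / H1Slack : `H¹(Γ, A)` is torsion prime to `p` (package ACF-1 / T1, with slack)

Same setting as `H1Vanish.lean`, `H1VanishBC.lean`, but the Hasse norm property of the layers of
index `p` is only assumed up to a multiple prime to `p` (`HasseSlackAt`).

* `slack_of_cyclic` (Step A), `slack_of_pgroup` (Step B), `slack_of_finiteIndex` (Step C):
  for `V ≤ U` of finite index, normalised by `U`, every right-`V`-invariant cocycle `f` on `U` has a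
  multiple `m • f`, `p ∤ m`, which is a coboundary on `U`.
-/

set_option autoImplicit false
set_option linter.unusedSectionVars false

namespace Fermat.Agent.F4CfCore

open Finset

variable {Γ : Type*} [Group Γ] {A : Type*} [AddCommGroup A] [DistribMulAction Γ A]

/-- The Hasse norm property of the layer `H' ≤ H`, up to a multiple prime to `p`. -/
def HasseSlackAt (p : ℕ) (H H' : Subgroup Γ) (A : Type*) [AddCommGroup A]
    [DistribMulAction Γ A] : Prop :=
  ∀ σ ∈ H, σ ∉ H' → ∀ y : A, (∀ x ∈ H', x • y = y) → ∑ i ∈ range p, σ ^ i • y = 0 →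
    ∃ (m : ℕ) (z : A), ¬ p ∣ m ∧ (∀ x ∈ H', x • z = z) ∧ m • y = σ • z - z

lemma CocOn.nsmul {H : Subgroup Γ} {f : Γ → A} (hf : CocOn H f) (m : ℕ) :
    CocOn H (fun g => m • f g) := by
  intro g hg h hh
  simp only [hf g hg h hh, smul_add, smul_comm g m]

lemma InvOn.nsmul {H V : Subgroup Γ} {f : Γ → A} (hf : InvOn H V f) (m : ℕ) :
    InvOn H V (fun g => m • f g) := by
  intro g hg v hv
  simp only [hf g hg v hv]

section Slack

variable {p : ℕ} [hp : Fact p.Prime]

/-- **Step A with slack.** -/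
theorem slack_of_cyclic {H H' : Subgroup Γ} (hle : H' ≤ H) (hnorm : NormalIn H H')
    (hidx : H'.relIndex H = p) (hH : HasseSlackAt p H H' A) {f : Γ → A} (hf : CocOn H f)
    (hinv : InvOn H H' f) :
    ∃ (m : ℕ) (z : A), ¬ p ∣ m ∧ (∀ x ∈ H', x • z = z) ∧ ∀ g ∈ H, m • f g = g • z - z := by
  obtain ⟨σ, hσ, hσ'⟩ := exists_not_mem (p := p) hidx
  have h0 : ∀ x ∈ H', f x = 0 := fun x hx => eq_zero_of_mem hf hinv hx
  have hy : ∀ x ∈ H', x • f σ = f σ := by
    intro x hx
    have h1 := hf x (hle hx) σ hσ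
    rw [h0 x hx, zero_add] at h1
    have h2 : x * σ = σ * (σ⁻¹ * x * σ) := by group
    have h3 : σ⁻¹ * x * σ ∈ H' := by
      have := hnorm σ⁻¹ (H.inv_mem hσ) x hx
      simpa using this
    rw [← h1, h2, hinv σ hσ _ h3]
  have hN : ∑ i ∈ range p, σ ^ i • f σ = 0 := by
    rw [← cocOn_pow_eq_sum hf hσ]
    exact h0 _ (pow_prime_mem hnorm hidx hσ)
  obtain ⟨m, z, hm, hz, hyz⟩ := hH σ hσ hσ' (f σ) hy hN
  refine ⟨m, z, hm, hz, fun g hg => ?_⟩
  have he : CocOn H (fun g => m • f g - cob z g) := (hf.nsmul m).sub (cocOn_cob H z)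
  have heσ : (fun g => m • f g - cob z g) σ = 0 := by
    simp only [cob]
    rw [hyz]
    abel
  obtain ⟨i, x, hx, rfl⟩ := exists_pow_mul hnorm hidx hσ hσ' hg
  have h1 := he (σ ^ i) (H.pow_mem hσ i) x (hle hx)
  have h2 : (fun g => m • f g - cob z g) x = 0 := by
    simp only
    rw [h0 x hx, cob_eq_zero_of_fixed (hz x hx), smul_zero, sub_zero]
  rw [h2, smul_zero, add_zero] at h1
  have h4 := cocOn_pow_eq_zero he hσ heσ i
  have h3 : m • f (σ ^ i * x) - cob z (σ ^ i * x) = 0 := h1.trans h4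
  rw [sub_eq_zero] at h3
  rw [h3]
  rfl

/-- **Step B with slack.** -/
theorem slack_of_pgroup (V U₀ : Subgroup Γ)
    (hHasse : ∀ H H' : Subgroup Γ, V ≤ H' → H' ≤ H → H ≤ U₀ → NormalIn H H' →
      H'.relIndex H = p → HasseSlackAt p H H' A) :
    ∀ (k : ℕ) (H : Subgroup Γ), V ≤ H → H ≤ U₀ → NormalIn H V → V.relIndex H = p ^ k →
      ∀ f : Γ → A, CocOn H f → InvOn H V f →
        ∃ (m : ℕ) (z : A), ¬ p ∣ m ∧ (∀ x ∈ V, x • z = z) ∧
          ∀ g ∈ H, m • f g = g • z - z := by
  intro k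
  induction k with
  | zero =>
    intro H hVH _ _ hidx f hf hinv
    have hle : H ≤ V := Subgroup.relIndex_eq_one.1 (by simpa using hidx)
    refine ⟨1, 0, fun h => hp.out.one_lt.ne' (Nat.dvd_one.1 h), fun _ _ => smul_zero _,
      fun g hg => ?_⟩
    rw [smul_zero, sub_zero, one_smul]
    exact eq_zero_of_mem hf hinv (hle hg)
  | succ k ih =>
    intro H hVH hHU hnorm hidx f hf hinv
    have hn : (V.subgroupOf H).Normal := normal_subgroupOf hnorm
    have hcard : Nat.card (↥H ⧸ V.subgroupOf H) = p ^ (k + 1) := hidx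
    have hfin : Finite (↥H ⧸ V.subgroupOf H) :=
      Nat.finite_of_card_ne_zero (by rw [hcard]; exact pow_ne_zero _ hp.out.ne_zero)
    obtain ⟨Q', hQ'⟩ := Sylow.exists_subgroup_card_pow_prime (G := ↥H ⧸ V.subgroupOf H) p
      (n := k) (by rw [hcard]; exact pow_dvd_pow p (Nat.le_succ k))
    have hQidx : Q'.index = p := by
      have h1 := Q'.card_mul_index
      rw [hQ', hcard, pow_succ] at h1
      exact Nat.eq_of_mul_eq_mul_left (pow_pos hp.out.pos k) h1
    have hQn : Q'.Normal := by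
      apply Subgroup.normal_of_index_eq_minFac_card
      rw [hQidx, hcard, Nat.Prime.pow_minFac hp.out (Nat.succ_ne_zero k)]
    set H' : Subgroup Γ := liftSub hn Q' with hH'
    have hle : H' ≤ H := liftSub_le hn Q'
    have hVH' : V ≤ H' := le_liftSub hVH hn Q'
    have hnorm' : NormalIn H H' := normalIn_liftSub hn Q'
    have hidx' : H'.relIndex H = p := by rw [hH', relIndex_liftSub, hQidx]
    have hidxV : V.relIndex H' = p ^ k := by
      have h1 := Subgroup.relIndex_mul_relIndex V H' H hVH' hle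
      rw [hidx, hidx', pow_succ] at h1
      exact Nat.eq_of_mul_eq_mul_right hp.out.pos h1
    obtain ⟨m₁, z₁, hm₁, hz₁, hfz₁⟩ := ih H' hVH' (hle.trans hHU) (hnorm.mono hle) hidxV f
      (hf.mono hle) (hinv.mono hle)
    have he : CocOn H (fun g => m₁ • f g - cob z₁ g) := (hf.nsmul m₁).sub (cocOn_cob H z₁)
    have he0 : ∀ x ∈ H', (fun g => m₁ • f g - cob z₁ g) x = 0 := by
      intro x hx
      simp only [cob]
      rw [hfz₁ x hx, sub_self]
    obtain ⟨m₂, z₂, hm₂, hz₂, hez₂⟩ := slack_of_cyclic hle hnorm' hidx'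
      (hHasse H H' hVH' hle hHU hnorm' hidx') he (invOn_of_vanish hle he he0)
    refine ⟨m₂ * m₁, m₂ • z₁ + z₂, ?_, fun x hx => ?_, fun g hg => ?_⟩
    · intro hdvd
      rcases (Nat.Prime.dvd_mul hp.out).1 hdvd with h | h
      · exact hm₂ h
      · exact hm₁ h
    · rw [smul_add, smul_comm x m₂, hz₁ x hx, hz₂ x (hVH' hx)]
    · have := hez₂ g hg
      simp only [cob, smul_sub] at this
      rw [mul_smul, smul_add, smul_comm g m₂]
      have h2 : m₂ • m₁ • f g = (g • z₂ - z₂) + (m₂ • g • z₁ - m₂ • z₁) := by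
        rw [← this]
        abel
      rw [h2]
      abel

/-- **Step C with slack.**  `V ≤ U` of finite index, normalised by `U`, with the Hasse norm
property (up to prime-to-`p` slack) for the layers of index `p` between `V` and `U`: every
right-`V`-invariant cocycle on `U` has a multiple prime to `p` which is a coboundary on `U`. -/
theorem slack_of_finiteIndex (V U : Subgroup Γ) (hVU : V ≤ U) (hnorm : NormalIn U V)
    (hfin : V.relIndex U ≠ 0)
    (hHasse : ∀ H H' : Subgroup Γ, V ≤ H' → H' ≤ H → H ≤ U → NormalIn H H' →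
      H'.relIndex H = p → HasseSlackAt p H H' A)
    {f : Γ → A} (hf : CocOn U f) (hinv : InvOn U V f) :
    ∃ (m : ℕ) (z : A), ¬ p ∣ m ∧ ∀ g ∈ U, m • f g = g • z - z := by
  have hn : (V.subgroupOf U).Normal := normal_subgroupOf hnorm
  have hfinQ : Finite (↥U ⧸ V.subgroupOf U) := Nat.finite_of_card_ne_zero hfin
  obtain ⟨P⟩ : Nonempty (Sylow p (↥U ⧸ V.subgroupOf U)) := inferInstance
  set H : Subgroup Γ := liftSub hn (P : Subgroup (↥U ⧸ V.subgroupOf U)) with hH
  have hle : H ≤ U := liftSub_le hn _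
  have hVH : V ≤ H := le_liftSub hVU hn _
  have hidxH : H.relIndex U = (P : Subgroup (↥U ⧸ V.subgroupOf U)).index := relIndex_liftSub hn _
  have hndvd : ¬ p ∣ H.relIndex U := by
    rw [hidxH]
    exact P.not_dvd_index
  have hidx0 : H.relIndex U ≠ 0 := fun h0 => hndvd (by rw [h0]; exact dvd_zero p)
  have hidxV : V.relIndex H = p ^ (Nat.card (↥U ⧸ V.subgroupOf U)).factorization p := by
    have h1 := Subgroup.relIndex_mul_relIndex V H U hVH hle
    have h2 := (P : Subgroup (↥U ⧸ V.subgroupOf U)).card_mul_index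
    rw [P.card_eq_multiplicity, ← hidxH] at h2
    have h3 : V.relIndex U = Nat.card (↥U ⧸ V.subgroupOf U) := rfl
    rw [h3, ← h2] at h1
    exact Nat.eq_of_mul_eq_mul_right (Nat.pos_of_ne_zero hidx0) h1
  obtain ⟨m₁, c, hm₁, -, hfc⟩ := slack_of_pgroup V U hHasse _ H hVH hle (hnorm.mono hle) hidxV f
    (hf.mono hle) (hinv.mono hle)
  have he : CocOn U (fun g => m₁ • f g - cob c g) := (hf.nsmul m₁).sub (cocOn_cob U c)
  have he0 : ∀ x ∈ H, (fun g => m₁ • f g - cob c g) x = 0 := by
    intro x hx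
    simp only [cob]
    rw [hfc x hx, sub_self]
  obtain ⟨b, hb⟩ := exists_index_smul_eq U H hidx0 he (invOn_of_vanish hle he he0)
  refine ⟨H.relIndex U * m₁, (H.relIndex U) • c - b, ?_, fun g hg => ?_⟩
  · intro hdvd
    rcases (Nat.Prime.dvd_mul hp.out).1 hdvd with h | h
    · exact hndvd h
    · exact hm₁ h
  · have := hb g hg
    simp only [cob, smul_sub] at this
    rw [mul_smul, smul_sub, smul_comm g (H.relIndex U)]
    have h2 : H.relIndex U • m₁ • f g =
        (b - g • b) + (H.relIndex U • g • c - H.relIndex U • c) := by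
      rw [← this]
      abel
    rw [h2]
    abel

end Slack

end Fermat.Agent.F4CfCore
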