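import Mathlib

/-!
# F4 / CfCore / H1Vanish : `H¹(Γ, A)[p] = 0` from the Hasse norm property of the cyclic layers

Abstract core of package ACF-1 (T1) of the GLOB blueprint (abstract class formation mod `p`).

`Γ` a group acting on an abelian group `A`, `V ⊴ Γ` of finite index.  A 1-cochain `f : Γ → A`
is considered on subgroups `H ≥ V` of `Γ` (`CocOn H f`: cocycle identity on `H`; `InvOn H V f`:
right-`V`-invariance on `H`; `CobOn H f`: coboundary on `H`).

`HasseAt p H H' A`: for the layer `H' ⊴ H` of index `p` and `σ ∈ H ∖ H'`, every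
`y ∈ A^{H'}` with `N_σ y = ∑_{i<p} σ^i y = 0` is `σ z - z` with `z ∈ A^{H'}`.

* `cobOn_of_cyclic` (PROVED, Step A): a right-`H'`-invariant cocycle on `H` is a coboundary
  (`H¹(H/H', A^{H'}) = 0`).
* TODO Step B (`cobOn_of_pgroup`): the same for `V ⊴ H` with `[H : V] = p^k`.  Induction on `k`:
  `Q = ↥H ⧸ V.subgroupOf H` has a subgroup `Q'` of order `p^(k-1)`
  (`Sylow.exists_subgroup_card_pow_prime`), normal by `Subgroup.normal_of_index_eq_minFac_card`;
  `H' :=` its preimage; `f|H' = cob c` by induction, `f - cob c` vanishes on `H'`, so it is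
  right-`H'`-invariant (`invOn_of_vanish`), apply Step A.
* TODO Step C (`cobOn_top_of_pTorsion`): `f` right-`V`-invariant cocycle on `Γ`, `p • f` a
  coboundary => `f` a coboundary.  `P` a Sylow `p`-subgroup of `Γ ⧸ V`, `H` its preimage, Step B on
  `H`; `e = f - cob c` is right-`H`-invariant; `b = ∑_{t ∈ Γ/H} e t`, `n • e g = b - g • b`
  (`n = [Γ : H]`), Bezout with `p`.
-/

set_option autoImplicit false
set_option linter.unusedSectionVars false

namespace Fermat.Agent.F4CfCore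

open Finset

variable {Γ : Type*} [Group Γ] {A : Type*} [AddCommGroup A] [DistribMulAction Γ A]

/-- `f` satisfies the cocycle identity on the subgroup `H`. -/
def CocOn (H : Subgroup Γ) (f : Γ → A) : Prop :=
  ∀ g ∈ H, ∀ h ∈ H, f (g * h) = f g + g • f h

/-- `f` is right-`V`-invariant on `H`. -/
def InvOn (H V : Subgroup Γ) (f : Γ → A) : Prop :=
  ∀ g ∈ H, ∀ v ∈ V, f (g * v) = f g

/-- `f` is a coboundary on `H`. -/
def CobOn (H : Subgroup Γ) (f : Γ → A) : Prop :=
  ∃ c : A, ∀ g ∈ H, f g = g • c - c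

/-- The Hasse norm property (`Ĥ⁻¹ = 0`) of the layer `H' ≤ H` (to be used when `H' ⊴ H` has
index `p`). -/
def HasseAt (p : ℕ) (H H' : Subgroup Γ) (A : Type*) [AddCommGroup A] [DistribMulAction Γ A] :
    Prop :=
  ∀ σ ∈ H, σ ∉ H' → ∀ y : A, (∀ x ∈ H', x • y = y) → ∑ i ∈ range p, σ ^ i • y = 0 →
    ∃ z : A, (∀ x ∈ H', x • z = z) ∧ y = σ • z - z

/-- `H'` is normalised by `H`. -/
def NormalIn (H H' : Subgroup Γ) : Prop := ∀ h ∈ H, ∀ x ∈ H', h * x * h⁻¹ ∈ H'

/-! ### elementary facts on cocycles -/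

lemma CocOn.map_one {H : Subgroup Γ} {f : Γ → A} (hf : CocOn H f) : f 1 = 0 := by
  have h := hf 1 H.one_mem 1 H.one_mem
  rw [one_mul, one_smul] at h
  exact (add_eq_left.1 h.symm)

lemma CocOn.mono {H K : Subgroup Γ} {f : Γ → A} (hf : CocOn H f) (hKH : K ≤ H) : CocOn K f :=
  fun g hg h hh => hf g (hKH hg) h (hKH hh)

lemma InvOn.mono {H K V : Subgroup Γ} {f : Γ → A} (hf : InvOn H V f) (hKH : K ≤ H) :
    InvOn K V f :=
  fun g hg v hv => hf g (hKH hg) v hv

lemma InvOn.mono_right {H V W : Subgroup Γ} {f : Γ → A} (hf : InvOn H V f) (hWV : W ≤ V) :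
    InvOn H W f :=
  fun g hg v hv => hf g hg v (hWV hv)

/-- A right-`V`-invariant cocycle vanishes on `V`. -/
lemma eq_zero_of_mem {H V : Subgroup Γ} {f : Γ → A} (hf : CocOn H f) (hinv : InvOn H V f)
    {v : Γ} (hv : v ∈ V) : f v = 0 := by
  have := hinv 1 H.one_mem v hv
  rw [one_mul, hf.map_one] at this
  exact this

/-- A cocycle on `H` vanishing on `H' ≤ H` is right-`H'`-invariant. -/
lemma invOn_of_vanish {H H' : Subgroup Γ} (hle : H' ≤ H) {f : Γ → A} (hf : CocOn H f)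
    (h0 : ∀ x ∈ H', f x = 0) : InvOn H H' f := by
  intro g hg x hx
  rw [hf g hg x (hle hx), h0 x hx, smul_zero, add_zero]

/-- The coboundary of `c`. -/
def cob (c : A) : Γ → A := fun g => g • c - c

lemma cocOn_cob (H : Subgroup Γ) (c : A) : CocOn H (cob (Γ := Γ) c) := by
  intro g _ h _
  simp only [cob, mul_smul, smul_sub]
  abel

lemma cob_eq_zero_of_fixed {c : A} {x : Γ} (hx : x • c = c) : cob c x = 0 := by
  simp [cob, hx]

lemma CocOn.sub {H : Subgroup Γ} {f f' : Γ → A} (hf : CocOn H f) (hf' : CocOn H f') :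
    CocOn H (fun g => f g - f' g) := by
  intro g hg h hh
  simp only [hf g hg h hh, hf' g hg h hh, smul_sub]
  abel

lemma cocOn_pow_succ {H : Subgroup Γ} {f : Γ → A} (hf : CocOn H f) {σ : Γ} (hσ : σ ∈ H)
    (i : ℕ) : f (σ ^ (i + 1)) = f (σ ^ i) + σ ^ i • f σ := by
  rw [_root_.pow_succ]
  exact hf _ (H.pow_mem hσ i) _ hσ

lemma cocOn_pow_eq_sum {H : Subgroup Γ} {f : Γ → A} (hf : CocOn H f) {σ : Γ} (hσ : σ ∈ H)
    (i : ℕ) : f (σ ^ i) = ∑ j ∈ range i, σ ^ j • f σ := by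
  induction i with
  | zero => simp [hf.map_one]
  | succ i ih => rw [cocOn_pow_succ hf hσ i, ih, sum_range_succ]

lemma cocOn_pow_eq_zero {H : Subgroup Γ} {f : Γ → A} (hf : CocOn H f) {σ : Γ} (hσ : σ ∈ H)
    (h0 : f σ = 0) (i : ℕ) : f (σ ^ i) = 0 := by
  rw [cocOn_pow_eq_sum hf hσ, h0]
  simp

/-! ### Step A: a cyclic layer of index `p` -/

section Cyclic

variable {p : ℕ} [hp : Fact p.Prime] {H H' : Subgroup Γ}

/-- The normal subgroup `H'` of `H`, as an instance. -/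
lemma normal_subgroupOf (hnorm : NormalIn H H') : (H'.subgroupOf H).Normal := by
  refine ⟨fun x hx g => ?_⟩
  rw [Subgroup.mem_subgroupOf] at hx ⊢
  simpa using hnorm g g.2 x hx

/-- In a layer of prime index, every element of `H` is `σ ^ i * x` with `x ∈ H'`. -/
lemma exists_pow_mul (hnorm : NormalIn H H') (hidx : H'.relIndex H = p)
    {σ : Γ} (hσ : σ ∈ H) (hσ' : σ ∉ H') {g : Γ} (hg : g ∈ H) :
    ∃ i : ℕ, ∃ x ∈ H', g = σ ^ i * x := by
  have := normal_subgroupOf hnorm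
  have hcard : Nat.card (↥H ⧸ H'.subgroupOf H) = p := hidx
  have : Finite (↥H ⧸ H'.subgroupOf H) :=
    Nat.finite_of_card_ne_zero (by rw [hcard]; exact hp.out.ne_zero)
  set s : ↥H ⧸ H'.subgroupOf H := ((⟨σ, hσ⟩ : H) : ↥H ⧸ H'.subgroupOf H) with hs
  have hs1 : s ≠ 1 := by
    intro h
    rw [hs, QuotientGroup.eq_one_iff, Subgroup.mem_subgroupOf] at h
    exact hσ' h
  have htop := zpowers_eq_top_of_prime_card (G := ↥H ⧸ H'.subgroupOf H) hcard hs1
  have hmem : ((⟨g, hg⟩ : H) : ↥H ⧸ H'.subgroupOf H) ∈ Submonoid.powers s := by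
    rw [mem_powers_iff_mem_zpowers, htop]
    exact Subgroup.mem_top _
  obtain ⟨i, hi⟩ := hmem
  refine ⟨i, (σ ^ i)⁻¹ * g, ?_, by group⟩
  have h2 : (((⟨σ, hσ⟩ : H) ^ i : H) : ↥H ⧸ H'.subgroupOf H) = ((⟨g, hg⟩ : H) : _) := by
    rw [← hi, hs]; rfl
  rw [QuotientGroup.eq, Subgroup.mem_subgroupOf] at h2
  simpa using h2

/-- In a layer of prime index `p`, `σ ^ p ∈ H'`. -/
lemma pow_prime_mem (hnorm : NormalIn H H') (hidx : H'.relIndex H = p)
    {σ : Γ} (hσ : σ ∈ H) : σ ^ p ∈ H' := by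
  have := normal_subgroupOf hnorm
  have hcard : Nat.card (↥H ⧸ H'.subgroupOf H) = p := hidx
  have : Finite (↥H ⧸ H'.subgroupOf H) :=
    Nat.finite_of_card_ne_zero (by rw [hcard]; exact hp.out.ne_zero)
  have h1 : (((⟨σ, hσ⟩ : H) : ↥H ⧸ H'.subgroupOf H)) ^ p = 1 := by
    rw [← hcard]; exact pow_card_eq_one'
  have h2 : ((((⟨σ, hσ⟩ : H) ^ p : H)) : ↥H ⧸ H'.subgroupOf H) = 1 := h1
  rw [QuotientGroup.eq_one_iff, Subgroup.mem_subgroupOf] at h2
  simpa using h2

/-- There is an element of `H` outside `H'` when the index is a prime. -/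
lemma exists_not_mem (hidx : H'.relIndex H = p) : ∃ σ ∈ H, σ ∉ H' := by
  by_contra hcon
  push Not at hcon
  have hle : H ≤ H' := hcon
  have := Subgroup.relIndex_eq_one.2 hle
  rw [hidx] at this
  exact hp.out.one_lt.ne' this

/-- **Step A.**  For a layer `H' ⊴ H` of prime index `p` with the Hasse norm property, every
right-`H'`-invariant cocycle on `H` is a coboundary on `H`, of an `H'`-fixed element. -/
theorem cobOn_of_cyclic (hle : H' ≤ H) (hnorm : NormalIn H H') (hidx : H'.relIndex H = p)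
    (hH : HasseAt p H H' A) {f : Γ → A} (hf : CocOn H f) (hinv : InvOn H H' f) :
    ∃ z : A, (∀ x ∈ H', x • z = z) ∧ ∀ g ∈ H, f g = g • z - z := by
  obtain ⟨σ, hσ, hσ'⟩ := exists_not_mem (p := p) hidx
  have h0 : ∀ x ∈ H', f x = 0 := fun x hx => eq_zero_of_mem hf hinv hx
  -- `y = f σ` is `H'`-fixed
  have hy : ∀ x ∈ H', x • f σ = f σ := by
    intro x hx
    have h1 := hf x (hle hx) σ hσ
    rw [h0 x hx, zero_add] at h1
    have h2 : x * σ = σ * (σ⁻¹ * x * σ) := by group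
    have h3 : σ⁻¹ * x * σ ∈ H' := by
      have := hnorm σ⁻¹ (H.inv_mem hσ) x hx
      simpa using this
    rw [← h1, h2, hinv σ hσ _ h3]
  -- the norm of `y` vanishes
  have hN : ∑ i ∈ range p, σ ^ i • f σ = 0 := by
    rw [← cocOn_pow_eq_sum hf hσ]
    exact h0 _ (pow_prime_mem hnorm hidx hσ)
  obtain ⟨z, hz, hyz⟩ := hH σ hσ hσ' (f σ) hy hN
  refine ⟨z, hz, fun g hg => ?_⟩
  -- `e = f - cob z` is a right-`H'`-invariant cocycle on `H` vanishing at `σ`
  have he : CocOn H (fun g => f g - cob z g) := hf.sub (cocOn_cob H z)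
  have heσ : (fun g => f g - cob z g) σ = 0 := by
    simp only [cob]
    rw [hyz]; abel
  obtain ⟨i, x, hx, rfl⟩ := exists_pow_mul hnorm hidx hσ hσ' hg
  have h1 := he (σ ^ i) (H.pow_mem hσ i) x (hle hx)
  have h2 : (fun g => f g - cob z g) x = 0 := by
    simp only
    rw [h0 x hx, cob_eq_zero_of_fixed (hz x hx), sub_zero]
  rw [h2, smul_zero, add_zero] at h1
  have h4 := cocOn_pow_eq_zero he hσ heσ i
  have h3 : f (σ ^ i * x) - cob z (σ ^ i * x) = 0 := h1.trans h4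
  rw [sub_eq_zero] at h3
  rw [h3]; rfl

end Cyclic

end Fermat.Agent.F4CfCore
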