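import Fermat.Agent.F4.CfCore.H1Vanish

/-!
# F4 / CfCore / H1VanishBC : Steps B and C of `H¹(Γ, A)[p] = 0` (package ACF-1 / T1)

On top of `F4/CfCore/H1Vanish.lean` (helper87: `CocOn`, `InvOn`, `CobOn`, `HasseAt`, Step A).

* `cobOn_of_pgroup` (Step B): `V ≤ H ≤ U₀`, `V` normalised by `H`, `[H : V] = p ^ k`, Hasse norm
  property for all layers of index `p` between `V` and `U₀`: every right-`V`-invariant cocycle on `H` is the
  coboundary of a `V`-fixed element.
* `cobOn_of_pTorsion` (Step C): `V ≤ U` of finite index, `V` normalised by `U`: a right-`V`-invariant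
  cocycle `f` on `U` such that `p • f` is a coboundary on `U` is a coboundary on `U`.
-/

set_option autoImplicit false
set_option linter.unusedSectionVars false

namespace Fermat.Agent.F4CfCore

open Finset

variable {Γ : Type*} [Group Γ] {A : Type*} [AddCommGroup A] [DistribMulAction Γ A]

/-! ### Subgroups between `V` and `H` from subgroups of the quotient -/

section Lift

variable {H V : Subgroup Γ}

/-- The subgroup of `Γ` between `V` and `H` attached to a subgroup of `H/V`. -/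
def liftSub (hn : (V.subgroupOf H).Normal) (Q' : Subgroup (↥H ⧸ V.subgroupOf H)) :
    Subgroup Γ :=
  (Q'.comap (QuotientGroup.mk' (V.subgroupOf H))).map H.subtype

lemma liftSub_le (hn : (V.subgroupOf H).Normal) (Q' : Subgroup (↥H ⧸ V.subgroupOf H)) :
    liftSub hn Q' ≤ H := by
  rintro _ ⟨x, -, rfl⟩
  exact x.2

lemma mem_liftSub (hn : (V.subgroupOf H).Normal) (Q' : Subgroup (↥H ⧸ V.subgroupOf H))
    {g : Γ} (hg : g ∈ H) :
    g ∈ liftSub hn Q' ↔ ((⟨g, hg⟩ : H) : ↥H ⧸ V.subgroupOf H) ∈ Q' := by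
  constructor
  · rintro ⟨x, hx, hxg⟩
    have : x = ⟨g, hg⟩ := Subtype.ext hxg
    rw [← this]
    exact hx
  · intro h
    exact ⟨⟨g, hg⟩, h, rfl⟩

lemma le_liftSub (hVH : V ≤ H) (hn : (V.subgroupOf H).Normal)
    (Q' : Subgroup (↥H ⧸ V.subgroupOf H)) : V ≤ liftSub hn Q' := by
  intro v hv
  rw [mem_liftSub hn Q' (hVH hv)]
  have : ((⟨v, hVH hv⟩ : H) : ↥H ⧸ V.subgroupOf H) = 1 := by
    rw [QuotientGroup.eq_one_iff, Subgroup.mem_subgroupOf]
    exact hv
  rw [this]
  exact Q'.one_mem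

lemma liftSub_subgroupOf (hn : (V.subgroupOf H).Normal) (Q' : Subgroup (↥H ⧸ V.subgroupOf H)) :
    (liftSub hn Q').subgroupOf H = Q'.comap (QuotientGroup.mk' (V.subgroupOf H)) := by
  ext x
  rw [Subgroup.mem_subgroupOf, mem_liftSub hn Q' x.2]
  rfl

lemma relIndex_liftSub (hn : (V.subgroupOf H).Normal) (Q' : Subgroup (↥H ⧸ V.subgroupOf H)) :
    (liftSub hn Q').relIndex H = Q'.index := by
  rw [Subgroup.relIndex, liftSub_subgroupOf]
  exact Subgroup.index_comap_of_surjective Q' (QuotientGroup.mk'_surjective _)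

lemma normalIn_liftSub (hn : (V.subgroupOf H).Normal) (Q' : Subgroup (↥H ⧸ V.subgroupOf H))
    [hQ' : Q'.Normal] : NormalIn H (liftSub hn Q') := by
  intro h hh x hx
  have hxH : x ∈ H := liftSub_le hn Q' hx
  have hmem : h * x * h⁻¹ ∈ H := H.mul_mem (H.mul_mem hh hxH) (H.inv_mem hh)
  rw [mem_liftSub hn Q' hmem]
  have h1 := (mem_liftSub hn Q' hxH).1 hx
  have h2 := hQ'.conj_mem _ h1 ((⟨h, hh⟩ : H) : ↥H ⧸ V.subgroupOf H)
  exact h2

lemma NormalIn.mono {H K V : Subgroup Γ} (h : NormalIn H V) (hKH : K ≤ H) : NormalIn K V :=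
  fun g hg x hx => h g (hKH hg) x hx

end Lift

/-! ### Step B -/

section StepB

variable {p : ℕ} [hp : Fact p.Prime]

/-- **Step B.**  Every right-`V`-invariant cocycle on `H`, `[H : V] = p ^ k`, is the coboundary of
a `V`-fixed element. -/
theorem cobOn_of_pgroup (V U₀ : Subgroup Γ)
    (hHasse : ∀ H H' : Subgroup Γ, V ≤ H' → H' ≤ H → H ≤ U₀ → NormalIn H H' →
      H'.relIndex H = p → HasseAt p H H' A) :
    ∀ (k : ℕ) (H : Subgroup Γ), V ≤ H → H ≤ U₀ → NormalIn H V → V.relIndex H = p ^ k →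
      ∀ f : Γ → A, CocOn H f → InvOn H V f →
        ∃ z : A, (∀ x ∈ V, x • z = z) ∧ ∀ g ∈ H, f g = g • z - z := by
  intro k
  induction k with
  | zero =>
    intro H hVH _ _ hidx f hf hinv
    have hle : H ≤ V := Subgroup.relIndex_eq_one.1 (by simpa using hidx)
    refine ⟨0, fun _ _ => smul_zero _, fun g hg => ?_⟩
    rw [smul_zero, sub_zero]
    exact eq_zero_of_mem hf hinv (hle hg)
  | succ k ih =>
    intro H hVH hHU hnorm hidx f hf hinv
    have hn : (V.subgroupOf H).Normal := normal_subgroupOf hnorm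
    have hcard : Nat.card (↥H ⧸ V.subgroupOf H) = p ^ (k + 1) := hidx
    have hfin : Finite (↥H ⧸ V.subgroupOf H) :=
      Nat.finite_of_card_ne_zero (by rw [hcard]; exact pow_ne_zero _ hp.out.ne_zero)
    obtain ⟨Q', hQ'⟩ := Sylow.exists_subgroup_card_pow_prime (G := ↥H ⧸ V.subgroupOf H) p
      (n := k) (by rw [hcard]; exact pow_dvd_pow p (Nat.le_succ k))
    have hQidx : Q'.index = p := by
      have h1 := Q'.card_mul_index
      rw [hQ', hcard, pow_succ] at h1
      exact Nat.eq_of_mul_eq_mul_left (pow_pos hp.out.pos k) h1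
    have hQn : Q'.Normal := by
      apply Subgroup.normal_of_index_eq_minFac_card
      rw [hQidx, hcard, Nat.Prime.pow_minFac hp.out (Nat.succ_ne_zero k)]
    set H' : Subgroup Γ := liftSub hn Q' with hH'
    have hle : H' ≤ H := liftSub_le hn Q'
    have hVH' : V ≤ H' := le_liftSub hVH hn Q'
    have hnorm' : NormalIn H H' := normalIn_liftSub hn Q'
    have hidx' : H'.relIndex H = p := by rw [hH', relIndex_liftSub, hQidx]
    have hidxV : V.relIndex H' = p ^ k := by
      have h1 := Subgroup.relIndex_mul_relIndex V H' H hVH' hle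
      rw [hidx, hidx', pow_succ] at h1
      exact Nat.eq_of_mul_eq_mul_right hp.out.pos h1
    obtain ⟨z₁, hz₁, hfz₁⟩ := ih H' hVH' (hle.trans hHU) (hnorm.mono hle) hidxV f (hf.mono hle)
      (hinv.mono hle)
    have he : CocOn H (fun g => f g - cob z₁ g) := hf.sub (cocOn_cob H z₁)
    have he0 : ∀ x ∈ H', (fun g => f g - cob z₁ g) x = 0 := by
      intro x hx
      simp only [cob]
      rw [hfz₁ x hx, sub_self]
    obtain ⟨z₂, hz₂, hez₂⟩ := cobOn_of_cyclic hle hnorm' hidx'
      (hHasse H H' hVH' hle hHU hnorm' hidx') he (invOn_of_vanish hle he he0)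
    refine ⟨z₁ + z₂, fun x hx => ?_, fun g hg => ?_⟩
    · rw [smul_add, hz₁ x hx, hz₂ x (hVH' hx)]
    · have := hez₂ g hg
      simp only [cob] at this
      rw [smul_add]
      have h2 : f g = (g • z₂ - z₂) + (g • z₁ - z₁) := by
        rw [← this]
        abel
      rw [h2]
      abel

end StepB

/-! ### Step C -/

section StepC

variable {p : ℕ} [hp : Fact p.Prime]

/-- Averaging over the cosets of `H` in `U`: a cocycle on `U` which is right-`H`-invariant is killed
by `[U : H]` up to a coboundary. -/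
lemma exists_index_smul_eq (U H : Subgroup Γ) (hfin : H.relIndex U ≠ 0) {e : Γ → A}
    (he : CocOn U e) (hinv : InvOn U H e) :
    ∃ b : A, ∀ g ∈ U, (H.relIndex U) • e g = b - g • b := by
  classical
  have : Finite (↥U ⧸ H.subgroupOf U) := Nat.finite_of_card_ne_zero hfin
  let _ : Fintype (↥U ⧸ H.subgroupOf U) := Fintype.ofFinite _
  let E : (↥U ⧸ H.subgroupOf U) → A := fun t => e ((t.out : ↥U) : Γ)
  have hE : ∀ u : ↥U, E (u : ↥U ⧸ H.subgroupOf U) = e u := by
    intro u
    obtain ⟨h, hh⟩ := QuotientGroup.mk_out_eq_mul (H.subgroupOf U) u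
    show e (((QuotientGroup.mk u : ↥U ⧸ H.subgroupOf U).out : ↥U) : Γ) = e u
    rw [hh]
    exact hinv u u.2 h (Subgroup.mem_subgroupOf.1 h.2)
  refine ⟨∑ t, E t, fun g hg => ?_⟩
  have h1 : ∑ t, E ((⟨g, hg⟩ : U) • t) = ∑ t, E t :=
    Equiv.sum_comp (MulAction.toPerm (⟨g, hg⟩ : U)) E
  have h2 : ∀ t : ↥U ⧸ H.subgroupOf U, E ((⟨g, hg⟩ : U) • t) = e g + g • E t := by
    intro t
    induction t using QuotientGroup.induction_on with
    | H u =>
      rw [show (⟨g, hg⟩ : U) • (u : ↥U ⧸ H.subgroupOf U) =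
        (((⟨g, hg⟩ : U) * u : U) : ↥U ⧸ H.subgroupOf U) from rfl, hE, hE]
      exact he g hg u u.2
  have h4 : ∑ t, E ((⟨g, hg⟩ : U) • t) = (H.relIndex U) • e g + g • ∑ t, E t := by
    simp only [h2]
    rw [Finset.sum_add_distrib, Finset.sum_const, Finset.card_univ, ← Finset.smul_sum,
      ← Nat.card_eq_fintype_card]
    rfl
  rw [eq_sub_iff_add_eq]
  exact h4.symm.trans h1

/-- **Step C.**  `V ≤ U` of finite index, normalised by `U`, with the Hasse norm property for the
layers of index `p` above `V`: a right-`V`-invariant cocycle `f` on `U` such that `p • f` is a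
coboundary on `U` is a coboundary on `U`  (`H¹(U/V, A^V)[p] = 0`). -/
theorem cobOn_of_pTorsion (V U : Subgroup Γ) (hVU : V ≤ U) (hnorm : NormalIn U V)
    (hfin : V.relIndex U ≠ 0)
    (hHasse : ∀ H H' : Subgroup Γ, V ≤ H' → H' ≤ H → H ≤ U → NormalIn H H' →
      H'.relIndex H = p → HasseAt p H H' A)
    {f : Γ → A} (hf : CocOn U f) (hinv : InvOn U V f) (hpf : CobOn U (fun g => p • f g)) :
    CobOn U f := by
  have hn : (V.subgroupOf U).Normal := normal_subgroupOf hnorm
  have hfinQ : Finite (↥U ⧸ V.subgroupOf U) := Nat.finite_of_card_ne_zero hfin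
  obtain ⟨P⟩ : Nonempty (Sylow p (↥U ⧸ V.subgroupOf U)) := inferInstance
  set H : Subgroup Γ := liftSub hn (P : Subgroup (↥U ⧸ V.subgroupOf U)) with hH
  have hle : H ≤ U := liftSub_le hn _
  have hVH : V ≤ H := le_liftSub hVU hn _
  have hidxH : H.relIndex U = (P : Subgroup (↥U ⧸ V.subgroupOf U)).index := relIndex_liftSub hn _
  have hndvd : ¬ p ∣ H.relIndex U := by
    rw [hidxH]
    exact P.not_dvd_index
  have hidx0 : H.relIndex U ≠ 0 := fun h0 => hndvd (by rw [h0]; exact dvd_zero p)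
  have hidxV : V.relIndex H = p ^ (Nat.card (↥U ⧸ V.subgroupOf U)).factorization p := by
    have h1 := Subgroup.relIndex_mul_relIndex V H U hVH hle
    have h2 := (P : Subgroup (↥U ⧸ V.subgroupOf U)).card_mul_index
    rw [P.card_eq_multiplicity, ← hidxH] at h2
    have h3 : V.relIndex U = Nat.card (↥U ⧸ V.subgroupOf U) := rfl
    rw [h3, ← h2] at h1
    exact Nat.eq_of_mul_eq_mul_right (Nat.pos_of_ne_zero hidx0) h1
  -- Step B on `H`
  obtain ⟨c, -, hfc⟩ := cobOn_of_pgroup V U hHasse _ H hVH hle (hnorm.mono hle) hidxV f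
    (hf.mono hle) (hinv.mono hle)
  -- `e = f - cob c` is right-`H`-invariant on `U`
  have he : CocOn U (fun g => f g - cob c g) := hf.sub (cocOn_cob U c)
  have he0 : ∀ x ∈ H, (fun g => f g - cob c g) x = 0 := by
    intro x hx
    simp only [cob]
    rw [hfc x hx, sub_self]
  obtain ⟨b, hb⟩ := exists_index_smul_eq U H hidx0 he (invOn_of_vanish hle he he0)
  obtain ⟨a, ha⟩ := hpf
  -- Bezout
  have hcop : IsCoprime (p : ℤ) ((H.relIndex U : ℕ) : ℤ) :=
    Nat.isCoprime_iff_coprime.2 ((Nat.Prime.coprime_iff_not_dvd hp.out).2 hndvd)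
  obtain ⟨u, v, huv⟩ := hcop
  refine ⟨u • (a - (p : ℤ) • c) - v • b + c, fun g hg => ?_⟩
  have hX : (p : ℤ) • (f g - (g • c - c)) = (g • a - a) - (p : ℤ) • (g • c - c) := by
    have ha' : p • f g = g • a - a := ha g hg
    rw [smul_sub, natCast_zsmul, ha']
  have hZ : ((H.relIndex U : ℕ) : ℤ) • (f g - (g • c - c)) = b - g • b := by
    rw [natCast_zsmul]
    exact hb g hg
  have hE : f g - (g • c - c) =
      u • ((g • a - a) - (p : ℤ) • (g • c - c)) + v • (b - g • b) := by
    rw [← hX, ← hZ, smul_smul, smul_smul, ← add_smul, huv, one_smul]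
  have hF : f g = u • ((g • a - a) - (p : ℤ) • (g • c - c)) + v • (b - g • b) + (g • c - c) := by
    rw [← hE]
    abel
  rw [hF]
  simp only [smul_add, smul_sub, smul_comm g u, smul_comm g v, smul_comm g (p : ℤ)]
  abel

end StepC

end Fermat.Agent.F4CfCore
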